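import Mathlib
import Fermat.Prelude.Def_FLTPrelim_ModularRep
import Fermat.Agent.S51.H780.I1

/-!
# S52, piece B3 (Hilbert irreducibility by hand) — FROZEN INTERFACE (squad S52/S60, helper60)

`B3Goal ⇐ HIT` (`b3Goal_of_HIT`, proved in `Fermat/Agent/S52/B3/Glue.lean`, uses landed S51 `three_main`).

* `quartic a b x = 3x⁴ + 6ax² + 12bx − a²` is `ψ₃` of `y² = x³ + ax + b`.
* `NoPolyRoot A B` : the quartic of the family `(A(t), B(t))` has no root in `ℚ[t]`.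
* `HIT` (abstract, Mathlib only): if the fibre at `t = 0` is nonsingular and has a rational root, and
  `NoPolyRoot A B`, then along `t = T/(r + kM)` there are arbitrarily large `k` whose fibre has no
  rational root.
* `NoPolyRootAbs` (abstract B3n, Mathlib only): `4A³ + 27B² = d₀F⁵`, `F` squarefree nonconstant,
  `3 deg A ≤ 5 deg F`, `A ≠ 0`  ⇒ `NoPolyRoot A B`.
* `B3Goal` : what `Switch` consumes (integral models with prescribed `c₄`, `c₆`).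
-/

set_option autoImplicit false

open Polynomial

namespace Fermat.Agent.S52.B3

/-- `ψ₃` of `y² = x³ + a x + b`. -/
def quartic {R : Type*} [CommRing R] (a b x : R) : R :=
  3 * x ^ 4 + 6 * a * x ^ 2 + 12 * b * x - a ^ 2

/-- The quartic of the family `(A(t), B(t))` has no root in `ℚ[t]`. -/
def NoPolyRoot (A B : ℚ[X]) : Prop :=
  ∀ P : ℚ[X], quartic A B P ≠ 0

/-- **HIT** (abstract Hilbert irreducibility for the `ψ₃`-quartic; frozen). -/
def HIT : Prop :=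
  ∀ (A B : ℚ[X]), 4 * (A.eval 0) ^ 3 + 27 * (B.eval 0) ^ 2 ≠ 0 →
    (∃ x₀ : ℚ, quartic (A.eval 0) (B.eval 0) x₀ = 0) →
    NoPolyRoot A B →
    ∀ (T : ℚ), T ≠ 0 → ∀ (M : ℕ), 0 < M → ∀ (r N0 : ℕ),
      ∃ k : ℕ, N0 ≤ k ∧ ∀ z : ℚ,
        quartic (A.eval (T / ((r + k * M : ℕ) : ℚ))) (B.eval (T / ((r + k * M : ℕ) : ℚ))) z ≠ 0

/-- **B3n** (abstract generic irreducibility; frozen). -/
def NoPolyRootAbs : Prop :=
  ∀ (A B F : ℚ[X]) (d₀ : ℚ), d₀ ≠ 0 → 4 * A ^ 3 + 27 * B ^ 2 = C d₀ * F ^ 5 →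
    Squarefree F → 3 * A.natDegree ≤ 5 * F.natDegree → 0 < F.natDegree → A ≠ 0 →
    NoPolyRoot A B

/-- Homogenisation of an integer polynomial: `homEval P d M n = ∑_{k ≤ d} P_k M^k n^(d-k)`
(`= n^d · P(M/n)` if `natDegree P ≤ d`). -/
def homEval (P : ℤ[X]) (d : ℕ) (M n : ℤ) : ℤ :=
  ∑ k ∈ Finset.range (d + 1), P.coeff k * M ^ k * n ^ (d - k)

/-- The rational family attached to integer polynomials `C4`, `C6`:
`A = -27 C4`, `B = -54 C6` (short Weierstrass form `y² = x³ - 27 c₄ x - 54 c₆`). -/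
noncomputable def famA (C4 : ℤ[X]) : ℚ[X] := C (-27 : ℚ) * C4.map (Int.castRingHom ℚ)

noncomputable def famB (C6 : ℤ[X]) : ℚ[X] := C (-54 : ℚ) * C6.map (Int.castRingHom ℚ)

/-- **B3 deliverable** (frozen): along `t = M/n`, `n ≡ r mod m`, there are arbitrarily large `n` such
that EVERY integral model with `c₄ = n²⁰C4(M/n)`, `c₆ = n³⁰C6(M/n)` and `Δ ≠ 0` has irreducible
mod-3 representation. -/
def B3Goal : Prop :=
  ∀ (W : WeierstrassCurve ℤ), W.Δ ≠ 0 → ¬ W.ModRepIsIrreducible 3 →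
  ∀ (C4 C6 : ℤ[X]), C4.natDegree ≤ 20 → C6.natDegree ≤ 30 →
    C4.coeff 0 = W.c₄ → C6.coeff 0 = W.c₆ →
    NoPolyRoot (famA C4) (famB C6) →
  ∀ (M : ℕ), 0 < M → ∀ (m : ℕ), 0 < m → ∀ (r N0 : ℕ),
    ∃ n : ℕ, N0 ≤ n ∧ 0 < n ∧ n ≡ r [MOD m] ∧
      ∀ W' : WeierstrassCurve ℤ, W'.c₄ = homEval C4 20 M n → W'.c₆ = homEval C6 30 M n →
        W'.Δ ≠ 0 → W'.ModRepIsIrreducible 3

end Fermat.Agent.S52.B3
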