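import Fermat.Agent.S52.B.Interfaces
import Fermat.Agent.S52.B3.H531.B3Goal

/-!
# S52, piece B3 — the deliverable `familyHIT : FamilyHIT` (squad S52/S60, helper60)

`FamilyHIT` is the frozen B-level interface of `Fermat/Agent/S52/B/Interfaces.lean` (helper52).

* `C4poly c4 c6`, `C6poly c4 c6`, `Fkpoly c4 c6 : ℤ[X]` — the canonical family data
  (`Fermat.Agent.S52.Fam`, helper952) as polynomials in `τ`.
* `NoPolyRootFam` — piece B3n for the explicit family (generic irreducibility).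
* `familyHIT_of_noPolyRootFam : NoPolyRootFam → FamilyHIT`, from the landed
  `Fermat.Agent.S52.B3.H531.b3Goal` (Hilbert irreducibility by hand, helper531).
-/

set_option autoImplicit false

open Polynomial

namespace Fermat.Agent.S52.B3

open Fermat.Agent.S52.Fam Fermat.Agent.S52.B

/-- The family polynomial `C4(c₄,c₆;τ) ∈ ℤ[τ]`. -/
noncomputable def C4poly (c4 c6 : ℤ) : ℤ[X] := Fam.C4 (C c4) (C c6) X

/-- The family polynomial `C6(c₄,c₆;τ) ∈ ℤ[τ]`. -/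
noncomputable def C6poly (c4 c6 : ℤ) : ℤ[X] := Fam.C6 (C c4) (C c6) X

/-- The family polynomial `Fk(c₄,c₆;τ) ∈ ℤ[τ]`. -/
noncomputable def Fkpoly (c4 c6 : ℤ) : ℤ[X] := Fam.Fk (C c4) (C c6) X

/-- **B3n for the explicit family** (frozen): the `ψ₃`-quartic of the family has no root in
`ℚ[τ]`. -/
def NoPolyRootFam : Prop :=
  ∀ c4 c6 : ℤ, c4 ^ 3 ≠ c6 ^ 2 → NoPolyRoot (famA (C4poly c4 c6)) (famB (C6poly c4 c6))

section eval

variable {S : Type*} [CommRing S]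

lemma eval₂_C4poly (f : ℤ →+* S) (c4 c6 : ℤ) (t : S) :
    (C4poly c4 c6).eval₂ f t = Fam.C4 (f c4) (f c6) t := by
  have := map_C4 (Polynomial.eval₂RingHom f t) (C c4) (C c6) X
  simpa [C4poly] using this

lemma eval₂_C6poly (f : ℤ →+* S) (c4 c6 : ℤ) (t : S) :
    (C6poly c4 c6).eval₂ f t = Fam.C6 (f c4) (f c6) t := by
  have := map_C6 (Polynomial.eval₂RingHom f t) (C c4) (C c6) X
  simpa [C6poly] using this

lemma eval₂_Fkpoly (f : ℤ →+* S) (c4 c6 : ℤ) (t : S) :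
    (Fkpoly c4 c6).eval₂ f t = Fam.Fk (f c4) (f c6) t := by
  have := map_Fk (Polynomial.eval₂RingHom f t) (C c4) (C c6) X
  simpa [Fkpoly] using this

end eval

lemma eval_C4poly (c4 c6 t : ℤ) : (C4poly c4 c6).eval t = Fam.C4 c4 c6 t := by
  exact eval₂_C4poly (RingHom.id ℤ) c4 c6 t

lemma eval_C6poly (c4 c6 t : ℤ) : (C6poly c4 c6).eval t = Fam.C6 c4 c6 t := by
  exact eval₂_C6poly (RingHom.id ℤ) c4 c6 t

lemma coeff_zero_C4poly (c4 c6 : ℤ) : (C4poly c4 c6).coeff 0 = c4 := by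
  rw [Polynomial.coeff_zero_eq_eval_zero, eval_C4poly]
  simp [Fam.C4, Fam.C4_0]

lemma coeff_zero_C6poly (c4 c6 : ℤ) : (C6poly c4 c6).coeff 0 = c6 := by
  rw [Polynomial.coeff_zero_eq_eval_zero, eval_C6poly]
  simp [Fam.C6, Fam.C6_0]

lemma natDegree_C4poly_le (c4 c6 : ℤ) : (C4poly c4 c6).natDegree ≤ 20 := by
  unfold C4poly Fam.C4 C4_0 C4_1 C4_2 C4_3 C4_4 C4_5 C4_6 C4_7 C4_8 C4_9 C4_10 C4_11 C4_12 C4_13
    C4_14 C4_15 C4_16 C4_17 C4_18 C4_19 C4_20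
  compute_degree

lemma natDegree_C6poly_le (c4 c6 : ℤ) : (C6poly c4 c6).natDegree ≤ 30 := by
  unfold C6poly Fam.C6 C6_0 C6_1 C6_2 C6_3 C6_4 C6_5 C6_6 C6_7 C6_8 C6_9 C6_10 C6_11 C6_12 C6_13
    C6_14 C6_15 C6_16 C6_17 C6_18 C6_19 C6_20 C6_21 C6_22 C6_23 C6_24 C6_25 C6_26 C6_27 C6_28
    C6_29 C6_30
  compute_degree

lemma natDegree_Fkpoly_le (c4 c6 : ℤ) : (Fkpoly c4 c6).natDegree ≤ 12 := by
  unfold Fkpoly Fam.Fk Fk_0 Fk_2 Fk_3 Fk_4 Fk_5 Fk_6 Fk_7 Fk_8 Fk_9 Fk_10 Fk_11 Fk_12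
  compute_degree

/-- `homEval (C4poly c4 c6) 20 M n = C4h c4 c6 M n` for `n ≠ 0`. -/
lemma homEval_C4poly (c4 c6 M n : ℤ) (hn : n ≠ 0) :
    homEval (C4poly c4 c6) 20 M n = C4h c4 c6 M n := by
  have hnq : ((n : ℤ) : ℚ) ≠ 0 := by exact_mod_cast hn
  have h1 := Fermat.Agent.S52.H531.homEval_eq (K := ℚ) (C4poly c4 c6) 20
    (natDegree_C4poly_le c4 c6) M n hnq
  have h2 := C4h_eq_pow_mul (c4 : ℚ) (c6 : ℚ) (M : ℚ) hnq
  have h3 : ((C4h c4 c6 M n : ℤ) : ℚ) = C4h (c4 : ℚ) (c6 : ℚ) (M : ℚ) (n : ℚ) := by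
    have := map_C4h (Int.castRingHom ℚ) c4 c6 M n
    simpa using this
  have h4 : ((C4poly c4 c6).map (Int.castRingHom ℚ)).eval ((M : ℚ) / n) =
      Fam.C4 (c4 : ℚ) (c6 : ℚ) ((M : ℚ) / n) := by
    rw [Polynomial.eval_map, eval₂_C4poly]; simp
  have : ((homEval (C4poly c4 c6) 20 M n : ℤ) : ℚ) = ((C4h c4 c6 M n : ℤ) : ℚ) := by
    rw [H531.homEval_eq_homEval, h1, h4, h3, h2]
  exact_mod_cast this

/-- `homEval (C6poly c4 c6) 30 M n = C6h c4 c6 M n` for `n ≠ 0`. -/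
lemma homEval_C6poly (c4 c6 M n : ℤ) (hn : n ≠ 0) :
    homEval (C6poly c4 c6) 30 M n = C6h c4 c6 M n := by
  have hnq : ((n : ℤ) : ℚ) ≠ 0 := by exact_mod_cast hn
  have h1 := Fermat.Agent.S52.H531.homEval_eq (K := ℚ) (C6poly c4 c6) 30
    (natDegree_C6poly_le c4 c6) M n hnq
  have h2 := C6h_eq_pow_mul (c4 : ℚ) (c6 : ℚ) (M : ℚ) hnq
  have h3 : ((C6h c4 c6 M n : ℤ) : ℚ) = C6h (c4 : ℚ) (c6 : ℚ) (M : ℚ) (n : ℚ) := by
    have := map_C6h (Int.castRingHom ℚ) c4 c6 M n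
    simpa using this
  have h4 : ((C6poly c4 c6).map (Int.castRingHom ℚ)).eval ((M : ℚ) / n) =
      Fam.C6 (c4 : ℚ) (c6 : ℚ) ((M : ℚ) / n) := by
    rw [Polynomial.eval_map, eval₂_C6poly]; simp
  have : ((homEval (C6poly c4 c6) 30 M n : ℤ) : ℚ) = ((C6h c4 c6 M n : ℤ) : ℚ) := by
    rw [H531.homEval_eq_homEval, h1, h4, h3, h2]
  exact_mod_cast this

/-- **B3 deliverable**, modulo B3n for the explicit family. -/
theorem familyHIT_of_noPolyRootFam (hno : NoPolyRootFam) : FamilyHIT := by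
  intro W hΔ _hW h3 M hM
  have hrel : (1728 : ℤ) * W.Δ = W.c₄ ^ 3 - W.c₆ ^ 2 := W.c_relation
  have hne : W.c₄ ^ 3 ≠ W.c₆ ^ 2 := by
    intro h
    apply hΔ
    have : (1728 : ℤ) * W.Δ = 0 := by rw [hrel, h, sub_self]
    exact (mul_eq_zero.mp this).resolve_left (by norm_num)
  have hMpos : 0 < M.toNat := by omega
  have hMcast : (M.toNat : ℤ) = M := Int.toNat_of_nonneg (by omega)
  obtain ⟨n, -, hnpos, hnmod, hirr⟩ := H531.b3Goal W hΔ h3 (C4poly W.c₄ W.c₆) (C6poly W.c₄ W.c₆)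
    (natDegree_C4poly_le _ _) (natDegree_C6poly_le _ _) (coeff_zero_C4poly _ _)
    (coeff_zero_C6poly _ _) (hno W.c₄ W.c₆ hne) M.toNat hMpos M.toNat hMpos 1 0
  have hn0 : (n : ℤ) ≠ 0 := by exact_mod_cast hnpos.ne'
  refine ⟨(n : ℤ), ?_, ?_⟩
  · have := (Int.natCast_modEq_iff).mpr hnmod
    simpa [hMcast] using this
  · intro W' hΔ' h4' h6'
    apply hirr W' _ _ hΔ'
    · rw [h4', hMcast, homEval_C4poly _ _ _ _ hn0]
    · rw [h6', hMcast, homEval_C6poly _ _ _ _ hn0]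

end Fermat.Agent.S52.B3
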